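import Fermat.Agent.LT.A2.H38.MatchSpec
import Fermat.Agent.Lib.Cheb.Chebotarev
import Fermat.Agent.Lib.Cheb.H956.Consumers

/-!
# Row LT, tower A2, branch GALSEED, leaf `ChebG0C` (A2.01.18) -- helper91, OFF-MAIN

`chebG0_h91 : Fermat.Agent.LT.A2.H38.ChebG0C`: outside every finite set of primes there are a
prime `p`, a valuation subring `A` of `ℚ̄` over `p` and a Frobenius element `σ` at `A` with
`ρ σ = g0`.

Proof: `ρ` is onto, so `g0 = ρ σ₀`; `ρ` is continuous with discrete target, so its kernel is open;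
qualitative Chebotarev over `ℚ̄` (`Fermat.Agent.Lib.Cheb.chebotarev`, ON MAIN) in the form for a
homomorphism with open kernel (`Lib.Cheb.H956.chebotarev_hom`, ON MAIN).
-/

set_option autoImplicit false

open scoped MatrixGroups

namespace Fermat.Agent.LT.H91

open Fermat.Agent.Lib.Cheb.Spec

/-- General form: every value of a continuous `ρ : G_ℚ → GL₂(𝔽₃)` is attained at a Frobenius
element at a prime outside any given finite set, with inertia killed by `ρ`. -/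
theorem exists_frobenius_map_eq_h91 (ρ : GQ →* GL (Fin 2) (ZMod 3)) (hρ : Continuous ρ)
    (σ₀ : GQ) (S : Finset ℕ) :
    ∃ (p : ℕ) (A : ValuationSubring Qb) (σ : GQ),
      p.Prime ∧ p ∉ S ∧ A.LiesOverPrime p ∧ A.IsFrobeniusAt σ p ∧
      (∀ ι ∈ A.inertiaSubgroupIn ℚ, ρ ι = 1) ∧ ρ σ = ρ σ₀ :=
  Fermat.Agent.Lib.Cheb.H956.chebotarev_hom Fermat.Agent.Lib.Cheb.chebotarev ρ
    (Fermat.Agent.Lib.Cheb.H956.isOpen_ker_of_continuous ρ hρ) σ₀ S

/-- **Leaf `ChebG0C` (A2.01.18).** -/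
theorem chebG0_h91 : Fermat.Agent.LT.A2.H38.ChebG0C := by
  intro ρ Ψ hyp S
  obtain ⟨σ₀, hσ₀⟩ := hyp.surj Fermat.Agent.LT.A2.H38.g0
  obtain ⟨p, A, σ, hp, hpS, hA, hσ, -, h⟩ := exists_frobenius_map_eq_h91 ρ hyp.cont σ₀ S
  exact ⟨p, A, σ, hp, hpS, hA, hσ, h.trans hσ₀⟩

end Fermat.Agent.LT.H91
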